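import Fermat.Agent.FFG.Defs
import Fermat.Agent.FLAT.Zl
import Fermat.Agent.RED.S37.Exist
import Fermat.Agent.RED.RB.CharZero
import Fermat.Agent.RED.Desc.BMap

/-!
# FLAT / [MOD-1] : `FFG.Good` for the Gauss datum of the modular function field of level `M`,
`4 ∣ M` or `9 ∣ M`, `ℓ ∤ M`.
-/

set_option autoImplicit false
set_option synthInstance.maxHeartbeats 400000

noncomputable section

open AlgebraicCurve ModularCurve IntermediateField

namespace Fermat.Agent.FLAT

open Fermat.Agent.RED Fermat.Agent.S24 Fermat.Agent.S28 Fermat.Agent.RED.Gauss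

variable {ℓ : ℕ} [Fact ℓ.Prime] (M : ℕ) [NeZero M] (A : ValuationSubring Qb)
  (hA : A.LiesOverPrime ℓ) (hℓM : ¬ ℓ ∣ M)

theorem algebraMap_mem_gaussData_O (c : Qb) :
    algebraMap Qb (modularFunctionFieldBar M) c ∈ (gaussData A M hA hℓM).O ↔ c ∈ A :=
  algebraMap_mem_gO_iff (gaussNormBar A M hA hℓM) c

theorem constRing_gaussData : FFG.constRing (gaussData A M hA hℓM) = A := by
  ext c
  exact algebraMap_mem_gaussData_O M A hA hℓM c

theorem iota_jqModC_mem : iota A (jqModC A) ∈ modularFunctionFieldBar M := by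
  rw [iota_jqModC, ← Desc.coe_jF M]; exact (jF M).2

theorem jF_eq_iota : jF M = ⟨iota A (jqModC A), iota_jqModC_mem M A⟩ := by
  apply Subtype.ext
  rw [Desc.coe_jF]
  exact (iota_jqModC (A := A)).symm

theorem jF_mem_gaussData_O : jF M ∈ (gaussData A M hA hℓM).O := by
  rw [jF_eq_iota M A]
  exact integral_mem_gO (gaussNormBar A M hA hℓM) (iota_jqModC_mem M A)

theorem red_jF : (gaussData A M hA hℓM).red ⟨jF M, jF_mem_gaussData_O M A hA hℓM⟩ =
    Cusp.jb (IsLocalRing.ResidueField A) M := by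
  have h2 := gRed_integral (gaussNormBar A M hA hℓM) (iota_jqModC_mem M A)
  have h3 : (⟨jF M, jF_mem_gaussData_O M A hA hℓM⟩ : (gaussData A M hA hℓM).O) =
      ⟨⟨iota A (jqModC A), iota_jqModC_mem M A⟩,
        integral_mem_gO (gaussNormBar A M hA hℓM) (iota_jqModC_mem M A)⟩ :=
    Subtype.ext (jF_eq_iota M A)
  rw [h3]
  apply Subtype.ext
  refine (coe_gaussData_red A M hA hℓM _).trans (h2.trans ?_)
  rw [pi_jqModC]
  rfl

theorem rd_jF : rd (gaussData A M hA hℓM).O (gaussData A M hA hℓM).red (jF M) =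
    Cusp.jb (IsLocalRing.ResidueField A) M := by
  rw [rd_of_mem (jF_mem_gaussData_O M A hA hℓM), red_jF]

theorem isArch (hA : A.LiesOverPrime ℓ) : FFG.IsArch A := by
  intro π c hπ hc
  obtain ⟨n, hn⟩ := exists_pow_valuation_le hA hπ hc
  exact ⟨n, by rwa [map_pow]⟩

/-- **[MOD-1]** good reduction of `X₀(M)` at `ℓ ∤ M`, `4 ∣ M` or `9 ∣ M`, in the sense of `FFG`. -/
theorem exists_good (h49 : 4 ∣ M ∨ 9 ∣ M) :
    ∃ r : Place Qb (modularFunctionFieldBar M) →
        Place (IsLocalRing.ResidueField A)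
          (modularFunctionFieldFullC (IsLocalRing.ResidueField A) M),
      FFG.Good (gaussData A M hA hℓM) r := by
  have := charP_residueField A hA
  have := isAlgClosed_residueField A
  have hgen : gR (AlgebraicClosure ℚ) (modularFunctionFieldBar M) ≤
      gR (IsLocalRing.ResidueField A)
        (modularFunctionFieldFullC (IsLocalRing.ResidueField A) M) :=
    gen_of_rhRel M (fun _ _ _ _ _ _ _ _ _ _ _ _ h1 h2 => Fermat.Agent.RR.rhRel h1 h2) h49 _ hℓM
  obtain ⟨c, H⟩ := exists_deuringHyp_gaussData M A hA hℓM hgen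
  obtain ⟨r, hsurj, hP1, -⟩ := H.exists_placeMap
  have hx := isSepParam_jF_deu M
  have hxb := Cusp.isSepParam_jb M (IsLocalRing.ResidueField A) ℓ hℓM
  have hred : IsReduction (gaussData A M hA hℓM).O (gaussData A M hA hℓM).red r :=
    (gaussData A M hA hℓM).isReduction hx r hP1
  have hxb' : IsSepParam (IsLocalRing.ResidueField A)
      (rd (gaussData A M hA hℓM).O (gaussData A M hA hℓM).red (jF M)) := by
    rw [rd_jF]; exact hxb
  refine ⟨r, ⟨⟨_, hx⟩, ⟨_, hxb⟩, hP1, hsurj, H.on, hgen, ?_, ?_⟩⟩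
  · rw [constRing_gaussData]; exact isArch A hA
  · refine ⟨{Q | Q.ord (Cusp.jb (IsLocalRing.ResidueField A) M) < 0} ∪
      {Q | ∃ a : IsLocalRing.ResidueField A,
        2 ≤ Q.ord (Cusp.jb (IsLocalRing.ResidueField A) M - algebraMap _ _ a)},
      hxb.finite_poles.union hxb.finite_ramified, fun Q hQ => ?_⟩
    refine (hred.exists_isLocalParam (fun a => ?_) hx hxb' ?_ ?_ ?_).1
    · obtain ⟨c, hc, hca⟩ := (gaussData A M hA hℓM).exists_const a
      exact ⟨c, hc, by rw [rd_of_mem hc, hca]⟩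
    · rw [rd_jF, Cusp.finrank_jb M (IsLocalRing.ResidueField A) ℓ hℓM, RB.finrank_jF]
    · rw [rd_jF]
      by_contra hneg
      exact hQ (Or.inl (not_le.mp hneg))
    · rw [rd_jF]
      exact fun hh => hQ (Or.inr hh)

end Fermat.Agent.FLAT
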