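import Fermat.Agent.FLAT.Inst.Good
import Fermat.Agent.RED.Gauss.Decomp

/-!
# FLAT / [MOD-2] : inertia acts trivially on the special fibre; `j` is Galois invariant
-/

set_option autoImplicit false
set_option synthInstance.maxHeartbeats 400000

noncomputable section

open AlgebraicCurve ModularCurve IntermediateField

namespace Fermat.Agent.FLAT

open Fermat.Agent.RED Fermat.Agent.S24 Fermat.Agent.S28 Fermat.Agent.RED.Gauss

variable {ℓ : ℕ} [Fact ℓ.Prime] (M : ℕ) [NeZero M] (A : ValuationSubring Qb)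
  (hA : A.LiesOverPrime ℓ) (hℓM : ¬ ℓ ∣ M)

/-- the Galois action on the function field of level `M`. -/
abbrev galM (σ : GQ) : SemilinearAut Qb (modularFunctionFieldBar M) :=
  arithmeticGalois (modularFunctionFieldFull M) σ

theorem baseAut_galM (σ : GQ) (a : Qb) : SemilinearAut.baseAut (galM M σ) a = σ a := rfl

/-- `j` is Galois invariant. -/
theorem galM_smul_jF (σ : GQ) : galM M σ • jF M = jF M := by
  apply Subtype.ext
  rw [coe_arithmeticGalois_smul, Desc.coe_jF, coeffMap_jqModC]

/-- **[MOD-2]** inertia acts trivially on the special fibre. -/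
theorem compat_inertia {σ : GQ} (hσ : σ ∈ A.inertiaSubgroupIn ℚ) :
    GalEq.Compat (gaussData A M hA hℓM) (galM M σ) 1 := by
  have key : ∀ (x : modularFunctionFieldBar M) (hx : x ∈ (gaussData A M hA hℓM).O),
      ∃ hmem : galM M σ • x ∈ (gaussData A M hA hℓM).O,
        (gaussData A M hA hℓM).red ⟨galM M σ • x, hmem⟩ = (gaussData A M hA hℓM).red ⟨x, hx⟩ := by
    intro x hx
    obtain ⟨hmem, h⟩ := gRed_of_mem_inertia (gaussNormBar A M hA hℓM) σ hσ ⟨x, hx⟩
      (galM M σ • x).2
    exact ⟨hmem, Subtype.ext h⟩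
  exact ⟨fun x hx => (key x hx).1, fun x hx => by rw [one_smul]; exact (key x hx).2⟩

end Fermat.Agent.FLAT
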