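import Fermat.Agent.FLAT.Desc.Star
import Fermat.Agent.RED.S37.PicDesc
import Fermat.Agent.RED.S37.GalEq
import Fermat.Agent.RED.S37.Exist
import Fermat.Agent.GAL.OpenStab
import Fermat.Agent.S27.Up

/-!
# FLAT / [MOD-3] : the Galois module `J₀(N)[ℓ^k]`, its embedding in `J₀(N * aux ℓ)`
-/

set_option autoImplicit false
set_option synthInstance.maxHeartbeats 400000

noncomputable section

open AlgebraicCurve ModularCurve

namespace Fermat.Agent.FLAT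

open Fermat.Agent.RED

/-- `J₀(N)[ℓ^k]`. -/
abbrev Tors (N ℓ k : ℕ) : Type := ↥(Submodule.torsionBy ℤ (JZero N) ((ℓ : ℤ) ^ k))

theorem smul_mem_tors {N ℓ k : ℕ} (σ : GQ) {x : JZero N}
    (hx : x ∈ Submodule.torsionBy ℤ (JZero N) ((ℓ : ℤ) ^ k)) :
    σ • x ∈ Submodule.torsionBy ℤ (JZero N) ((ℓ : ℤ) ^ k) := by
  rw [Submodule.mem_torsionBy_iff] at hx ⊢
  rw [smul_comm, hx, smul_zero]

/-- the Galois action on `J₀(N)[ℓ^k]`. -/
def actTors (N ℓ k : ℕ) : GQ →* AddMonoid.End (Tors N ℓ k) where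
  toFun σ :=
    { toFun := fun x => ⟨σ • (x : JZero N), smul_mem_tors σ x.2⟩
      map_zero' := Subtype.ext (smul_zero σ)
      map_add' := fun x y => Subtype.ext (smul_add σ (x : JZero N) y) }
  map_one' := by
    ext x
    exact one_smul GQ (x : JZero N)
  map_mul' σ τ := by
    ext x
    exact mul_smul σ τ (x : JZero N)

@[simp]
theorem coe_actTors {N ℓ k : ℕ} (σ : GQ) (x : Tors N ℓ k) :
    ((actTors N ℓ k σ x : Tors N ℓ k) : JZero N) = σ • (x : JZero N) := rfl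

theorem nsmul_eq_zero_of_mem_tors {N ℓ k : ℕ} (x : Tors N ℓ k) : (ℓ ^ k) • (x : JZero N) = 0 := by
  have := x.2
  rw [Submodule.mem_torsionBy_iff] at this
  rw [← this, ← natCast_zsmul]
  push_cast
  rfl

theorem smoothAct_actTors (N ℓ k : ℕ) (hℓ : ℓ ≠ 0) : SmoothAct (actTors N ℓ k) := by
  intro x
  obtain ⟨L, hL, h⟩ := GAL.openStab_of_torsion N (ℓ ^ k) (pow_ne_zero k hℓ) (x : JZero N)
    (nsmul_eq_zero_of_mem_tors x)
  exact ⟨L, hL, fun σ hσ => Subtype.ext (h σ hσ)⟩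

instance finite_tors (N : ℕ) [NeZero N] (ℓ k : ℕ) [NeZero ℓ] : Finite (Tors N ℓ k) := by
  haveI : S27.IsFF Qb (modularFunctionFieldBar N) :=
    ⟨⟨S24.jF N, GAL.HeckeInputs.isFiniteParam_jF N⟩⟩
  have h := S27.card_torsion Qb (modularFunctionFieldBar N) (ℓ ^ k)
    (pow_pos (Nat.pos_of_ne_zero (NeZero.ne ℓ)) k)
  have hfin : Finite (Pic0.torsion Qb (modularFunctionFieldBar N) (ℓ ^ k)) := by
    apply Nat.finite_of_card_ne_zero
    rw [h]
    exact pow_ne_zero _ (pow_ne_zero k (NeZero.ne ℓ))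
  refine Finite.of_injective
    (fun x : Tors N ℓ k => (⟨(x : JZero N), ?_⟩ : Pic0.torsion Qb (modularFunctionFieldBar N) (ℓ ^ k)))
    (fun x y hxy => Subtype.ext (congrArg Subtype.val hxy))
  rw [Pic0.mem_torsion]
  have := x.2
  rw [Submodule.mem_torsionBy_iff] at this
  rw [← this]
  push_cast
  rfl

/-- the embedding `B^* : J₀(N)[ℓ^k] → J₀(N * aux ℓ)`. -/
def iotaTors (N : ℕ) [NeZero N] (ℓ k : ℕ) : Tors N ℓ k →+ JZero (N * aux ℓ) :=
  (Bstar N (aux ℓ) (heckeInputsAlong' N (aux ℓ))).comp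
    (Submodule.torsionBy ℤ (JZero N) ((ℓ : ℤ) ^ k)).subtype.toAddMonoidHom

theorem iotaTors_injective (N : ℕ) [NeZero N] (ℓ k : ℕ) (hℓ : ℓ ≠ 0) :
    Function.Injective (iotaTors N ℓ k) := by
  rw [injective_iff_map_eq_zero]
  intro x hx
  exact Subtype.ext (Bstar_eq_zero_of_torsion N (aux ℓ) (aux_eq ℓ) (heckeInputsAlong' N (aux ℓ)) (x : JZero N) (ℓ ^ k)
    (pow_ne_zero k hℓ) (nsmul_eq_zero_of_mem_tors x) hx)

theorem iotaTors_act (N : ℕ) [NeZero N] (ℓ k : ℕ) (σ : GQ) (x : Tors N ℓ k) :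
    iotaTors N ℓ k (actTors N ℓ k σ x) = σ • iotaTors N ℓ k x :=
  Bstar_smul N (aux ℓ) (heckeInputsAlong' N (aux ℓ)) σ (x : JZero N)

end Fermat.Agent.FLAT
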